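/-
S41 / [VC] (helper42): the group isomorphism on affine points induced by an admissible change of
variables of a Weierstrass curve over a field.  Mathlib only.
-/
import Mathlib.AlgebraicGeometry.EllipticCurve.Affine.Point
import Mathlib.AlgebraicGeometry.EllipticCurve.VariableChange

set_option autoImplicit false

namespace Fermat.Agent.S41.Red42

open WeierstrassCurve WeierstrassCurve.Affine

variable {F : Type*} [Field F]

/-- `x = u² x' + r`. -/
def fx (C : VariableChange F) (x' : F) : F := (C.u : F) ^ 2 * x' + C.r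

/-- `y = u³ y' + u² s x' + t`. -/
def fy (C : VariableChange F) (x' y' : F) : F :=
  (C.u : F) ^ 3 * y' + (C.u : F) ^ 2 * C.s * x' + C.t

/-- inverse `x`-coordinate. -/
def bx (C : VariableChange F) (x : F) : F := ((C.u : F) ^ 2)⁻¹ * (x - C.r)

/-- inverse `y`-coordinate. -/
def by' (C : VariableChange F) (x y : F) : F :=
  ((C.u : F) ^ 3)⁻¹ * (y - C.t - C.s * (x - C.r))

section coords

variable (C : VariableChange F)

lemma fx_bx (x : F) : fx C (bx C x) = x := by
  have hu : (C.u : F) ≠ 0 := C.u.ne_zero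
  simp only [fx, bx]; field_simp; ring

lemma fy_bx_by (x y : F) : fy C (bx C x) (by' C x y) = y := by
  have hu : (C.u : F) ≠ 0 := C.u.ne_zero
  simp only [fy, bx, by']; field_simp; ring

lemma bx_fx (x' : F) : bx C (fx C x') = x' := by
  have hu : (C.u : F) ≠ 0 := C.u.ne_zero
  simp only [fx, bx]; field_simp; ring

lemma by_fx_fy (x' y' : F) : by' C (fx C x') (fy C x' y') = y' := by
  have hu : (C.u : F) ≠ 0 := C.u.ne_zero
  simp only [fx, fy, by']; field_simp; ring

lemma fx_injective : Function.Injective (fx C) := fun a b h => by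
  have := congrArg (bx C) h
  rwa [bx_fx, bx_fx] at this

lemma fy_injective (x' : F) : Function.Injective (fy C x') := fun a b h => by
  have := congrArg (by' C (fx C x')) h
  rwa [by_fx_fy, by_fx_fy] at this

end coords

variable (W : WeierstrassCurve F) (C : VariableChange F)

lemma equation_fwd_iff (x' y' : F) :
    W.toAffine.Equation (fx C x') (fy C x' y') ↔ (C • W).toAffine.Equation x' y' := by
  have hu : (C.u : F) ≠ 0 := C.u.ne_zero
  rw [Affine.equation_iff, Affine.equation_iff]
  simp only [variableChange_a₁, variableChange_a₂, variableChange_a₃, variableChange_a₄,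
    variableChange_a₆, fx, fy, Units.val_inv_eq_inv_val]
  constructor
  · intro h
    field_simp
    linear_combination h
  · intro h
    field_simp at h
    linear_combination h

/-- the `X`-partial derivative transforms as `u⁴ F'_X = F_X + s F_Y`. -/
lemma polyX_fwd (x' y' : F) :
    (C.u : F) ^ 4 * ((C • W).a₁ * y' - (3 * x' ^ 2 + 2 * (C • W).a₂ * x' + (C • W).a₄)) =
      (W.a₁ * fy C x' y' - (3 * fx C x' ^ 2 + 2 * W.a₂ * fx C x' + W.a₄)) +
        C.s * (2 * fy C x' y' + W.a₁ * fx C x' + W.a₃) := by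
  have hu : (C.u : F) ≠ 0 := C.u.ne_zero
  simp only [variableChange_a₁, variableChange_a₂, variableChange_a₄,
    fx, fy, Units.val_inv_eq_inv_val]
  field_simp
  ring

/-- the `Y`-partial derivative transforms as `u³ F'_Y = F_Y`. -/
lemma polyY_fwd (x' y' : F) :
    (C.u : F) ^ 3 * (2 * y' + (C • W).a₁ * x' + (C • W).a₃) =
      2 * fy C x' y' + W.a₁ * fx C x' + W.a₃ := by
  have hu : (C.u : F) ≠ 0 := C.u.ne_zero
  simp only [variableChange_a₁, variableChange_a₃, fx, fy, Units.val_inv_eq_inv_val]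
  field_simp
  ring

lemma nonsingular_fwd_iff (x' y' : F) :
    W.toAffine.Nonsingular (fx C x') (fy C x' y') ↔ (C • W).toAffine.Nonsingular x' y' := by
  have hu : (C.u : F) ≠ 0 := C.u.ne_zero
  rw [Affine.nonsingular_iff', Affine.nonsingular_iff', equation_fwd_iff]
  refine and_congr_right fun _ => ?_
  rw [← not_and_or, ← not_and_or, not_iff_not]
  have hX := polyX_fwd W C x' y'
  have hY := polyY_fwd W C x' y'
  constructor
  · rintro ⟨h1, h2⟩
    rw [h1, h2, mul_zero, add_zero] at hX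
    rw [h2] at hY
    exact ⟨(mul_eq_zero.1 hX).resolve_left (pow_ne_zero _ hu),
      (mul_eq_zero.1 hY).resolve_left (pow_ne_zero _ hu)⟩
  · rintro ⟨h1, h2⟩
    rw [h2, mul_zero] at hY
    rw [h1, mul_zero, ← hY, mul_zero, add_zero] at hX
    exact ⟨hX.symm, hY.symm⟩

lemma nonsingular_bwd_iff (x y : F) :
    (C • W).toAffine.Nonsingular (bx C x) (by' C x y) ↔ W.toAffine.Nonsingular x y := by
  rw [← nonsingular_fwd_iff, fx_bx, fy_bx_by]

/-- compatibility of `negY`. -/
lemma negY_fwd (x' y' : F) :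
    W.toAffine.negY (fx C x') (fy C x' y') = fy C x' ((C • W).toAffine.negY x' y') := by
  have hu : (C.u : F) ≠ 0 := C.u.ne_zero
  simp only [Affine.negY, variableChange_a₁, variableChange_a₃, fx, fy, Units.val_inv_eq_inv_val]
  field_simp
  ring

lemma addX_fwd (x₁' x₂' ℓ' : F) :
    W.toAffine.addX (fx C x₁') (fx C x₂') ((C.u : F) * ℓ' + C.s) =
      fx C ((C • W).toAffine.addX x₁' x₂' ℓ') := by
  have hu : (C.u : F) ≠ 0 := C.u.ne_zero
  simp only [Affine.addX, variableChange_a₁, variableChange_a₂, fx, Units.val_inv_eq_inv_val]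
  field_simp
  ring

lemma negAddY_fwd (x₁' x₂' y₁' ℓ' : F) :
    W.toAffine.negAddY (fx C x₁') (fx C x₂') (fy C x₁' y₁') ((C.u : F) * ℓ' + C.s) =
      fy C ((C • W).toAffine.addX x₁' x₂' ℓ') ((C • W).toAffine.negAddY x₁' x₂' y₁' ℓ') := by
  have hu : (C.u : F) ≠ 0 := C.u.ne_zero
  rw [Affine.negAddY, addX_fwd, Affine.negAddY]
  simp only [fx, fy]
  ring

lemma addY_fwd (x₁' x₂' y₁' ℓ' : F) :
    W.toAffine.addY (fx C x₁') (fx C x₂') (fy C x₁' y₁') ((C.u : F) * ℓ' + C.s) =
      fy C ((C • W).toAffine.addX x₁' x₂' ℓ') ((C • W).toAffine.addY x₁' x₂' y₁' ℓ') := by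
  rw [Affine.addY, negAddY_fwd, addX_fwd, negY_fwd, Affine.addY]

lemma some_eq_some {W : WeierstrassCurve F} {x₁ y₁ x₂ y₂ : F} {h₁ : W.toAffine.Nonsingular x₁ y₁}
    {h₂ : W.toAffine.Nonsingular x₂ y₂} (hx : x₁ = x₂) (hy : y₁ = y₂) :
    Point.some x₁ y₁ h₁ = Point.some x₂ y₂ h₂ := by
  subst hx hy
  rfl

/-- the map on points `(x', y') ↦ (u² x' + r, u³ y' + u² s x' + t)` from `C • W` to `W`. -/
def fwdFun : (C • W).toAffine.Point → W.toAffine.Point
  | .zero => .zero
  | .some x' y' h' => .some (fx C x') (fy C x' y') ((nonsingular_fwd_iff W C x' y').2 h')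

/-- the inverse map on points. -/
def bwdFun : W.toAffine.Point → (C • W).toAffine.Point
  | .zero => .zero
  | .some x y h => .some (bx C x) (by' C x y) ((nonsingular_bwd_iff W C x y).2 h)

lemma fwdFun_zero : fwdFun W C 0 = 0 := rfl

lemma fwdFun_some {x' y' : F} (h' : (C • W).toAffine.Nonsingular x' y') :
    fwdFun W C (.some x' y' h') =
      .some (fx C x') (fy C x' y') ((nonsingular_fwd_iff W C x' y').2 h') := rfl

lemma bwdFun_zero : bwdFun W C 0 = 0 := rfl

lemma bwdFun_some {x y : F} (h : W.toAffine.Nonsingular x y) :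
    bwdFun W C (.some x y h) =
      .some (bx C x) (by' C x y) ((nonsingular_bwd_iff W C x y).2 h) := rfl

lemma bwdFun_fwdFun (P : (C • W).toAffine.Point) : bwdFun W C (fwdFun W C P) = P := by
  rcases P with _ | ⟨x', y', h'⟩
  · rfl
  · rw [fwdFun_some, bwdFun_some]
    exact some_eq_some (bx_fx C x') (by_fx_fy C x' y')

lemma fwdFun_bwdFun (P : W.toAffine.Point) : fwdFun W C (bwdFun W C P) = P := by
  rcases P with _ | ⟨x, y, h⟩
  · rfl
  · rw [bwdFun_some, fwdFun_some]
    exact some_eq_some (fx_bx C x) (fy_bx_by C x y)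

variable [DecidableEq F]

lemma slope_fwd {x₁' x₂' y₁' y₂' : F} (h₁ : (C • W).toAffine.Equation x₁' y₁')
    (h₂ : (C • W).toAffine.Equation x₂' y₂')
    (hxy : ¬(x₁' = x₂' ∧ y₁' = (C • W).toAffine.negY x₂' y₂')) :
    W.toAffine.slope (fx C x₁') (fx C x₂') (fy C x₁' y₁') (fy C x₂' y₂') =
      (C.u : F) * (C • W).toAffine.slope x₁' x₂' y₁' y₂' + C.s := by
  have hu : (C.u : F) ≠ 0 := C.u.ne_zero
  by_cases hx : x₁' = x₂'
  · have hy : y₁' ≠ (C • W).toAffine.negY x₂' y₂' := fun h => hxy ⟨hx, h⟩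
    have hyy : y₁' = y₂' := Affine.Y_eq_of_Y_ne h₁ h₂ hx hy
    subst hx hyy
    have hy2 : fy C x₁' y₁' ≠ W.toAffine.negY (fx C x₁') (fy C x₁' y₁') := by
      rw [negY_fwd]
      exact fun h => hy (fy_injective C x₁' h)
    rw [Affine.slope_of_Y_ne rfl hy, Affine.slope_of_Y_ne rfl hy2]
    have hd' : y₁' - (C • W).toAffine.negY x₁' y₁' ≠ 0 := sub_ne_zero.2 hy
    have hd : fy C x₁' y₁' - W.toAffine.negY (fx C x₁') (fy C x₁' y₁') ≠ 0 := sub_ne_zero.2 hy2
    have hX := polyX_fwd W C x₁' y₁'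
    have hY := polyY_fwd W C x₁' y₁'
    have e1 : y₁' - (C • W).toAffine.negY x₁' y₁' =
        2 * y₁' + (C • W).a₁ * x₁' + (C • W).a₃ := by
      simp only [Affine.negY]; ring
    have e2 : fy C x₁' y₁' - W.toAffine.negY (fx C x₁') (fy C x₁' y₁') =
        2 * fy C x₁' y₁' + W.a₁ * fx C x₁' + W.a₃ := by
      simp only [Affine.negY]; ring
    rw [e1] at hd' ⊢
    rw [e2] at hd ⊢
    have key : ∀ N' D' : F, D' ≠ 0 →
        (C.u : F) * (N' / D') * ((C.u : F) ^ 3 * D') = (C.u : F) ^ 4 * N' := by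
      intro N' D' h
      field_simp
    rw [div_eq_iff hd, ← hY, add_mul, key _ _ hd']
    rw [← hY] at hX
    linear_combination hX
  · have hx2 : fx C x₁' ≠ fx C x₂' := fun h => hx (fx_injective C h)
    rw [Affine.slope_of_X_ne hx, Affine.slope_of_X_ne hx2]
    have hd' : x₁' - x₂' ≠ 0 := sub_ne_zero.2 hx
    have hd : fx C x₁' - fx C x₂' ≠ 0 := sub_ne_zero.2 hx2
    rw [div_eq_iff hd]
    simp only [fx, fy]
    field_simp
    ring

lemma fwdFun_add (P Q : (C • W).toAffine.Point) :
    fwdFun W C (P + Q) = fwdFun W C P + fwdFun W C Q := by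
  rcases P with _ | ⟨x₁', y₁', h₁'⟩
  · change fwdFun W C (0 + Q) = 0 + fwdFun W C Q
    rw [zero_add, zero_add]
  rcases Q with _ | ⟨x₂', y₂', h₂'⟩
  · change fwdFun W C (_ + 0) = _ + 0
    rw [add_zero, add_zero]
  by_cases hxy : x₁' = x₂' ∧ y₁' = (C • W).toAffine.negY x₂' y₂'
  · rw [Point.add_of_Y_eq hxy.1 hxy.2, fwdFun_some, fwdFun_some,
      Point.add_of_Y_eq (congrArg _ hxy.1) (by rw [negY_fwd, hxy.2, hxy.1])]
    rfl
  · have hxy2 : ¬(fx C x₁' = fx C x₂' ∧
        fy C x₁' y₁' = W.toAffine.negY (fx C x₂') (fy C x₂' y₂')) := by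
      rintro ⟨h1, h2⟩
      have hx := fx_injective C h1
      refine hxy ⟨hx, ?_⟩
      rw [negY_fwd, ← hx] at h2
      have := fy_injective C x₁' h2
      rw [this, hx]
    rw [Point.add_some hxy, fwdFun_some, fwdFun_some, fwdFun_some, Point.add_some hxy2]
    have hs := slope_fwd W C h₁'.1 h₂'.1 hxy
    refine some_eq_some ?_ ?_
    · rw [hs, addX_fwd]
    · rw [hs, addY_fwd]

/-- The additive equivalence on points induced by a change of variables. -/
noncomputable def pointEquiv : (C • W).toAffine.Point ≃+ W.toAffine.Point where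
  toFun := fwdFun W C
  invFun := bwdFun W C
  left_inv := bwdFun_fwdFun W C
  right_inv := fwdFun_bwdFun W C
  map_add' := fwdFun_add W C

lemma pointEquiv_zero' : pointEquiv W C 0 = 0 := rfl

lemma pointEquiv_some {x' y' : F} (h' : (C • W).toAffine.Nonsingular x' y') :
    pointEquiv W C (.some x' y' h') =
      .some (fx C x') (fy C x' y') ((nonsingular_fwd_iff W C x' y').2 h') := rfl

variable {W C}

omit [DecidableEq F] in
/-- nonsingularity transfer along an equation `C • W = W'`. -/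
lemma nonsingular_of_eq {W' : WeierstrassCurve F} (h : C • W = W') {x' y' : F}
    (h' : W'.toAffine.Nonsingular x' y') : W.toAffine.Nonsingular (fx C x') (fy C x' y') := by
  subst h
  exact (nonsingular_fwd_iff W C x' y').2 h'

/-- The additive equivalence on points induced by a change of variables, for a curve `W'`
which is propositionally `C • W`. -/
noncomputable def pointEquivOfEq {W' : WeierstrassCurve F} (h : C • W = W') :
    W'.toAffine.Point ≃+ W.toAffine.Point :=
  h ▸ pointEquiv W C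

lemma pointEquivOfEq_zero {W' : WeierstrassCurve F} (h : C • W = W') :
    pointEquivOfEq h 0 = 0 := map_zero _

lemma pointEquivOfEq_some {W' : WeierstrassCurve F} (h : C • W = W') {x' y' : F}
    (h' : W'.toAffine.Nonsingular x' y') :
    pointEquivOfEq h (.some x' y' h') = .some (fx C x') (fy C x' y') (nonsingular_of_eq h h') := by
  subst h
  rfl

end Fermat.Agent.S41.Red42
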