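/-
S41 / [VC] (helper42), Galois form: for `C • E = E'` over `ℚ`, the change of variables induces a
`Gal(ℚ̄/ℚ)`-equivariant additive equivalence `E'(ℚ̄) ≃+ E(ℚ̄)`, hence an equivariant equivalence
of the `p`-torsion modules, and irreducibility of the mod `p` representation transfers.
Application: an integral model `W` of `E` (`W.IsIntegralModelOf E`).
-/
import Fermat.Prelude.Def_FLTPrelim_GaloisRep
import Fermat.Prelude.Def_FLTPrelim_Modularity
import Fermat.Agent.S41.Red42.VarChange

set_option autoImplicit false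

namespace Fermat.Agent.S41.Red42

open WeierstrassCurve WeierstrassCurve.Affine WeierstrassCurve.Affine.Point

/-- `ℚ̄`. -/
abbrev Qb : Type := AlgebraicClosure ℚ

/-- `Gal(ℚ̄/ℚ)`. -/
abbrev GQ : Type := Qb ≃ₐ[ℚ] Qb

/-- `E[p](ℚ̄)` exactly as in the frozen `GaloisRepIsIrreducible`. -/
abbrev Tors (E : WeierstrassCurve ℚ) (p : ℕ) : Type := Submodule.torsionBy ℤ (E⁄Qb).Point p

section points

variable {E E' : WeierstrassCurve ℚ} {C : VariableChange ℚ} (h : C • E = E')

include h in
lemma baseChange_eq :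
    (C.map (algebraMap ℚ Qb)) • (E.baseChange Qb) = E'.baseChange Qb := by
  rw [← h]
  exact WeierstrassCurve.map_variableChange ..

/-- The additive equivalence `E'(ℚ̄) ≃+ E(ℚ̄)` for `C • E = E'`. -/
noncomputable def pointEquivQb : (E'⁄Qb).Point ≃+ (E⁄Qb).Point :=
  pointEquivOfEq (baseChange_eq h)

omit h in
lemma fx_commutes (σ : GQ) (x : Qb) :
    σ (fx (C.map (algebraMap ℚ Qb)) x) = fx (C.map (algebraMap ℚ Qb)) (σ x) := by
  simp only [fx, VariableChange.map, Units.coe_map, MonoidHom.coe_coe, map_add, map_mul, map_pow,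
    AlgEquiv.commutes]

omit h in
lemma fy_commutes (σ : GQ) (x y : Qb) :
    σ (fy (C.map (algebraMap ℚ Qb)) x y) = fy (C.map (algebraMap ℚ Qb)) (σ x) (σ y) := by
  simp only [fy, VariableChange.map, Units.coe_map, MonoidHom.coe_coe, map_add, map_mul, map_pow,
    AlgEquiv.commutes]

lemma pointEquivQb_smul (σ : GQ) (P : (E'⁄Qb).Point) :
    pointEquivQb h (σ • P) = σ • pointEquivQb h P := by
  rcases P with _ | ⟨x', y', h'⟩
  · change pointEquivQb h (σ • (0 : (E'⁄Qb).Point)) = σ • pointEquivQb h (0 : (E'⁄Qb).Point)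
    have h0 : σ • (0 : (E'⁄Qb).Point) = 0 := rfl
    have h1 : σ • (0 : (E⁄Qb).Point) = 0 := rfl
    rw [h0, _root_.map_zero, h1]
  · rw [algEquiv_smul_def, algEquiv_smul_def, Point.map_some]
    unfold pointEquivQb
    rw [pointEquivOfEq_some, pointEquivOfEq_some, Point.map_some]
    exact some_eq_some (fx_commutes σ x').symm (fy_commutes σ x' y').symm

end points

section tors

variable {E E' : WeierstrassCurve ℚ} (e : (E'⁄Qb).Point ≃+ (E⁄Qb).Point) (p : ℕ)

/-- restriction of an additive equivalence of the point groups to the `p`-torsion. -/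
noncomputable def torsEquivOf : Tors E' p ≃+ Tors E p where
  toFun P := ⟨e P, by
    rw [Submodule.mem_torsionBy_iff, ← map_zsmul, (Submodule.mem_torsionBy_iff _ _).1 P.2,
      _root_.map_zero]⟩
  invFun P := ⟨e.symm P, by
    rw [Submodule.mem_torsionBy_iff, ← map_zsmul, (Submodule.mem_torsionBy_iff _ _).1 P.2,
      _root_.map_zero]⟩
  left_inv P := Subtype.ext (e.symm_apply_apply _)
  right_inv P := Subtype.ext (e.apply_symm_apply _)
  map_add' P Q := Subtype.ext (map_add e _ _)

lemma torsEquivOf_coe (P : Tors E' p) : ((torsEquivOf e p P : Tors E p) : (E⁄Qb).Point) = e P := rfl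

lemma torsEquivOf_symm_coe (P : Tors E p) :
    (((torsEquivOf e p).symm P : Tors E' p) : (E'⁄Qb).Point) = e.symm P := rfl

variable {e} in
lemma torsEquivOf_smul (he : ∀ (σ : GQ) (P : (E'⁄Qb).Point), e (σ • P) = σ • e P)
    (σ : GQ) (P : Tors E' p) : torsEquivOf e p (σ • P) = σ • torsEquivOf e p P :=
  Subtype.ext (he σ P)

variable {e} in
lemma torsEquivOf_symm_smul (he : ∀ (σ : GQ) (P : (E'⁄Qb).Point), e (σ • P) = σ • e P)
    (σ : GQ) (P : Tors E p) :
    (torsEquivOf e p).symm (σ • P) = σ • (torsEquivOf e p).symm P := by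
  apply (torsEquivOf e p).injective
  rw [torsEquivOf_smul p he, AddEquiv.apply_symm_apply, AddEquiv.apply_symm_apply]

end tors

section irreducible

variable {E E' : WeierstrassCurve ℚ} {p : ℕ}

/-- Irreducibility of the mod `p` representation transfers along a Galois-equivariant additive
equivalence of the `p`-torsion modules. -/
theorem galoisRepIsIrreducible_of_equiv (e : Tors E' p ≃+ Tors E p)
    (he : ∀ (σ : GQ) (P : Tors E' p), e (σ • P) = σ • e P)
    (hirr : GaloisRepIsIrreducible (K := Qb) ℚ E p) :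
    GaloisRepIsIrreducible (K := Qb) ℚ E' p := by
  obtain ⟨hnt, hsub⟩ := hirr
  refine ⟨e.symm.injective.nontrivial, fun N' hN' => ?_⟩
  have hes : ∀ (σ : GQ) (P : Tors E p), e.symm (σ • P) = σ • e.symm P := by
    intro σ P
    apply e.injective
    rw [he, AddEquiv.apply_symm_apply, AddEquiv.apply_symm_apply]
  -- the pulled back submodule of `E[p]`
  let N : Submodule (ZMod p) (Tors E p) :=
    { carrier := {x | e.symm x ∈ N'}
      add_mem' := fun {a b} ha hb => by
        change e.symm (a + b) ∈ N'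
        rw [map_add]
        exact N'.add_mem ha hb
      zero_mem' := by
        change e.symm 0 ∈ N'
        rw [_root_.map_zero]
        exact N'.zero_mem
      smul_mem' := fun c x hx => by
        change e.symm (c • x) ∈ N'
        rw [ZMod.map_smul]
        exact N'.smul_mem c hx }
  have hmemN : ∀ x, x ∈ N ↔ e.symm x ∈ N' := fun _ => Iff.rfl
  have hN : IsGaloisStable ℚ N := by
    intro σ x hx
    rw [hmemN, hes]
    exact hN' σ _ hx
  rcases hsub N hN with hbot | htop
  · left
    rw [eq_bot_iff]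
    intro y hy
    have : e y ∈ N := by rw [hmemN, AddEquiv.symm_apply_apply]; exact hy
    rw [hbot, Submodule.mem_bot] at this
    rw [Submodule.mem_bot]
    exact (map_eq_zero_iff e e.injective).1 this
  · right
    rw [eq_top_iff]
    intro y _
    have : e y ∈ N := by rw [htop]; exact Submodule.mem_top
    rw [hmemN, AddEquiv.symm_apply_apply] at this
    exact this

end irreducible

section model

variable {E E' : WeierstrassCurve ℚ} {C : VariableChange ℚ} {p : ℕ}

/-- The `Gal(ℚ̄/ℚ)`-equivariant additive equivalence `E'[p] ≃+ E[p]` for `C • E = E'`. -/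
noncomputable def torsEquiv (h : C • E = E') (p : ℕ) : Tors E' p ≃+ Tors E p :=
  torsEquivOf (pointEquivQb h) p

lemma torsEquiv_smul (h : C • E = E') (σ : GQ) (P : Tors E' p) :
    torsEquiv h p (σ • P) = σ • torsEquiv h p P :=
  torsEquivOf_smul p (pointEquivQb_smul h) σ P

lemma torsEquiv_symm_smul (h : C • E = E') (σ : GQ) (P : Tors E p) :
    (torsEquiv h p).symm (σ • P) = σ • (torsEquiv h p).symm P :=
  torsEquivOf_symm_smul p (pointEquivQb_smul h) σ P

theorem card_tors_of_variableChange (h : C • E = E') :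
    Nat.card (Tors E' p) = Nat.card (Tors E p) :=
  Nat.card_congr (torsEquiv h p).toEquiv

theorem galoisRepIsIrreducible_of_variableChange (h : C • E = E')
    (hirr : GaloisRepIsIrreducible (K := Qb) ℚ E p) :
    GaloisRepIsIrreducible (K := Qb) ℚ E' p :=
  galoisRepIsIrreducible_of_equiv (torsEquiv h p) (torsEquiv_smul h) hirr

theorem galoisRepIsIrreducible_of_variableChange_symm (h : C • E = E')
    (hirr : GaloisRepIsIrreducible (K := Qb) ℚ E' p) :
    GaloisRepIsIrreducible (K := Qb) ℚ E p :=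
  galoisRepIsIrreducible_of_equiv (torsEquiv h p).symm (torsEquiv_symm_smul h) hirr

/-- a nonzero `φ`-fixed point of `E'[p]` gives one of `E[p]`. -/
theorem exists_fixed_of_variableChange (h : C • E = E') (φ : GQ)
    (hfix : ∃ P : Tors E' p, P ≠ 0 ∧ φ • P = P) : ∃ P : Tors E p, P ≠ 0 ∧ φ • P = P := by
  obtain ⟨P, hP0, hP⟩ := hfix
  refine ⟨torsEquiv h p P, fun h0 => hP0 ?_, ?_⟩
  · exact (map_eq_zero_iff (torsEquiv h p) (torsEquiv h p).injective).1 h0
  · rw [← torsEquiv_smul, hP]

/-- a nonzero `φ`-fixed point of `E[p]` gives one of `E'[p]`. -/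
theorem exists_fixed_of_variableChange_symm (h : C • E = E') (φ : GQ)
    (hfix : ∃ P : Tors E p, P ≠ 0 ∧ φ • P = P) : ∃ P : Tors E' p, P ≠ 0 ∧ φ • P = P := by
  obtain ⟨P, hP0, hP⟩ := hfix
  refine ⟨(torsEquiv h p).symm P, fun h0 => hP0 ?_, ?_⟩
  · exact (map_eq_zero_iff (torsEquiv h p).symm (torsEquiv h p).symm.injective).1 h0
  · rw [← torsEquiv_symm_smul, hP]

variable {W : WeierstrassCurve ℤ}

/-- **[VC]** irreducibility of `E[p]` passes to the integral model `W_ℚ`. -/
theorem galoisRepIsIrreducible_of_isIntegralModelOf (hW : W.IsIntegralModelOf E)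
    (hirr : GaloisRepIsIrreducible (K := AlgebraicClosure ℚ) ℚ E p) :
    GaloisRepIsIrreducible (K := AlgebraicClosure ℚ) ℚ (W.map (Int.castRingHom ℚ)) p := by
  obtain ⟨C, hC⟩ := hW
  exact galoisRepIsIrreducible_of_variableChange hC hirr

/-- **[VC]** irreducibility of `W_ℚ[p]` passes back to `E`. -/
theorem galoisRepIsIrreducible_of_isIntegralModelOf_symm (hW : W.IsIntegralModelOf E)
    (hirr : GaloisRepIsIrreducible (K := AlgebraicClosure ℚ) ℚ (W.map (Int.castRingHom ℚ)) p) :
    GaloisRepIsIrreducible (K := AlgebraicClosure ℚ) ℚ E p := by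
  obtain ⟨C, hC⟩ := hW
  exact galoisRepIsIrreducible_of_variableChange_symm hC hirr

theorem card_tors_of_isIntegralModelOf (hW : W.IsIntegralModelOf E) :
    Nat.card (Tors (W.map (Int.castRingHom ℚ)) p) = Nat.card (Tors E p) := by
  obtain ⟨C, hC⟩ := hW
  exact card_tors_of_variableChange hC

theorem exists_fixed_of_isIntegralModelOf (hW : W.IsIntegralModelOf E) (φ : GQ)
    (hfix : ∃ P : Tors (W.map (Int.castRingHom ℚ)) p, P ≠ 0 ∧ φ • P = P) :
    ∃ P : Tors E p, P ≠ 0 ∧ φ • P = P := by
  obtain ⟨C, hC⟩ := hW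
  exact exists_fixed_of_variableChange hC φ hfix

theorem exists_fixed_of_isIntegralModelOf_symm (hW : W.IsIntegralModelOf E) (φ : GQ)
    (hfix : ∃ P : Tors E p, P ≠ 0 ∧ φ • P = P) :
    ∃ P : Tors (W.map (Int.castRingHom ℚ)) p, P ≠ 0 ∧ φ • P = P := by
  obtain ⟨C, hC⟩ := hW
  exact exists_fixed_of_variableChange_symm hC φ hfix

end model

end Fermat.Agent.S41.Red42
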