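/-
S41 / [VC] (helper42): transfer of the three plugs of `NonEis44.nonEisenstein`
(`TorsCard`, `TorsLift`, `ChebPP`) from the integral model `W_ℚ = W.map (Int.castRingHom ℚ)`
to the curve `E` itself, along `W.IsIntegralModelOf E`.  So `nonEisenstein` can be applied either
at `E := W_ℚ` (with `galoisRepIsIrreducible_of_isIntegralModelOf`) or at `E` directly.
-/
import Fermat.Agent.S41.Red42.VarChangeGalois
import Fermat.Agent.S41.NonEis44.Assembly

set_option autoImplicit false

namespace Fermat.Agent.S41.Red42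

open WeierstrassCurve WeierstrassCurve.Affine WeierstrassCurve.Affine.Point

variable {E : WeierstrassCurve ℚ} {W : WeierstrassCurve ℤ} {p : ℕ}

theorem torsCard_of_model (hW : W.IsIntegralModelOf E)
    (hcard : NonEis44.TorsCard (W.map (Int.castRingHom ℚ)) p) : NonEis44.TorsCard E p := by
  unfold NonEis44.TorsCard at *
  rw [← card_tors_of_isIntegralModelOf hW]
  exact hcard

theorem torsCard_to_model (hW : W.IsIntegralModelOf E)
    (hcard : NonEis44.TorsCard E p) : NonEis44.TorsCard (W.map (Int.castRingHom ℚ)) p := by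
  unfold NonEis44.TorsCard at *
  rw [card_tors_of_isIntegralModelOf hW]
  exact hcard

theorem torsLift_of_model (hW : W.IsIntegralModelOf E) {B₀ : Finset ℕ}
    (hlift : NonEis44.TorsLift (W.map (Int.castRingHom ℚ)) W p B₀) :
    NonEis44.TorsLift E W p B₀ := by
  intro ℓ hℓ hB hg hℓp hd A hA φ hφ
  exact exists_fixed_of_isIntegralModelOf hW φ (hlift ℓ hℓ hB hg hℓp hd A hA φ hφ)

theorem pow_smul_torsEquiv {E E' : WeierstrassCurve ℚ} {C : VariableChange ℚ} (h : C • E = E')
    (σ : GQ) (n : ℕ) (P : Tors E' p) :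
    torsEquiv h p (σ ^ n • P) = σ ^ n • torsEquiv h p P :=
  torsEquiv_smul h (σ ^ n) P

theorem chebPP_of_model (hW : W.IsIntegralModelOf E)
    (hcheb : NonEis44.ChebPP (W.map (Int.castRingHom ℚ)) p) : NonEis44.ChebPP E p := by
  obtain ⟨C, hC⟩ := hW
  intro σ hσ B
  obtain ⟨r, k, hr, hfix⟩ := hσ
  have hσ' : ∃ r k : ℕ, r.Prime ∧
      ∀ P : Tors (W.map (Int.castRingHom ℚ)) p, σ ^ (r ^ k) • P = P := by
    refine ⟨r, k, hr, fun P => ?_⟩
    apply (torsEquiv hC p).injective
    rw [torsEquiv_smul, hfix]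
  obtain ⟨ℓ, hℓ, hℓB, A, hA, φ, hφ, n, hn⟩ := hcheb σ hσ' B
  refine ⟨ℓ, hℓ, hℓB, A, hA, φ, hφ, n, fun P => ?_⟩
  have := hn ((torsEquiv hC p).symm P)
  have h2 := congrArg (torsEquiv hC p) this
  rw [torsEquiv_smul, torsEquiv_smul, AddEquiv.apply_symm_apply] at h2
  exact h2

end Fermat.Agent.S41.Red42
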